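import Fermat.Agent.PrimePlusPrimePower.Main

/-!
# The density of the sums

The condition is necessary up to the sums with one of the primes at most `k + 1`, which have density
zero, so the sums have the density `φ D / D` of the admissible numbers, `D` the product of the
primes `p` with `(p - 1) ∣ k`.
-/

set_option autoImplicit false

noncomputable section

namespace FA.PrimePlusPrimePower

open Finset Filter Topology

/-- The product of the primes `p` with `(p - 1) ∣ k`. -/
def admissibleModulus (k : ℕ) : ℕ :=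
  ∏ p ∈ (range (k + 2)).filter (fun p => p.Prime ∧ (p - 1) ∣ k), p

theorem admissibleModulus_pos (k : ℕ) : 0 < admissibleModulus k :=
  prod_pos fun _ hp => (mem_filter.1 hp).2.1.pos

theorem le_succ_of_sub_one_dvd {k p : ℕ} (hk : 0 < k) (hd : (p - 1) ∣ k) : p ≤ k + 1 := by
  have := Nat.le_of_dvd hk hd
  omega

theorem isAdmissible_iff_coprime {k n : ℕ} (hk : 0 < k) (hn : 1 ≤ n) :
    IsAdmissible k n ↔ (admissibleModulus k).Coprime (n - 1) := by
  rw [admissibleModulus, Nat.coprime_prod_left_iff]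
  constructor
  · intro h p hp
    obtain ⟨hp, hd⟩ := (mem_filter.1 hp).2
    rw [hp.coprime_iff_not_dvd]
    exact fun h' => h p hp hd ((Nat.modEq_iff_dvd' hn).2 h').symm
  · intro h p hp hd h'
    have hmem : p ∈ (range (k + 2)).filter (fun p => p.Prime ∧ (p - 1) ∣ k) :=
      mem_filter.2 ⟨mem_range.2 (by have := le_succ_of_sub_one_dvd hk hd; omega), hp, hd⟩
    exact (hp.coprime_iff_not_dvd.1 (h p hmem)) ((Nat.modEq_iff_dvd' hn).1 h'.symm)

open Classical in
theorem card_admissible_bounds {k : ℕ} (hk : 0 < k) (N : ℕ) :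
    N / admissibleModulus k * (admissibleModulus k).totient ≤
        ((Ioc 0 N).filter fun n => IsAdmissible k n).card ∧
      ((Ioc 0 N).filter fun n => IsAdmissible k n).card ≤
        (N / admissibleModulus k + 1) * (admissibleModulus k).totient := by
  have hD0 := admissibleModulus_pos k
  obtain ⟨D, hD⟩ : ∃ D, D = admissibleModulus k := ⟨_, rfl⟩
  rw [← hD] at hD0 ⊢
  have e : ((Ioc 0 N).filter fun n => IsAdmissible k n).card =
      ((range N).filter fun m => D.Coprime m).card := by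
    refine card_nbij' (fun n => n - 1) (fun m => m + 1) (fun n hn => ?_) (fun m hm => ?_)
      (fun n hn => ?_) fun m _ => Nat.add_sub_cancel m 1
    · simp only [mem_coe, mem_filter, mem_Ioc, mem_range] at hn ⊢
      exact ⟨by omega, hD ▸ (isAdmissible_iff_coprime hk (by omega)).1 hn.2⟩
    · simp only [mem_coe, mem_filter, mem_Ioc, mem_range] at hm ⊢
      refine ⟨by omega, (isAdmissible_iff_coprime hk (by omega)).2 ?_⟩
      rw [← hD, Nat.add_sub_cancel]
      exact hm.2
    · simp only [mem_coe, mem_filter, mem_Ioc] at hn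
      show n - 1 + 1 = n
      omega
  have hblock : ∀ q : ℕ, ((range (q * D)).filter fun m => D.Coprime m).card = q * D.totient := by
    intro q
    induction q with
    | zero => simp
    | succ q ih =>
      rw [add_mul, one_mul, range_eq_Ico,
        ← Ico_union_Ico_eq_Ico (Nat.zero_le (q * D)) (Nat.le_add_right (q * D) D), filter_union,
        card_union_of_disjoint (disjoint_filter_filter (Ico_disjoint_Ico_consecutive _ _ _)),
        ← range_eq_Ico, ih, Nat.filter_coprime_Ico_eq_totient, add_mul, one_mul]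
  rw [e, ← hblock, ← hblock]
  refine ⟨card_le_card (filter_subset_filter _ (range_subset_range.2 ?_)),
    card_le_card (filter_subset_filter _ (range_subset_range.2 ?_))⟩
  · exact Nat.div_mul_le_self N D
  · exact (Nat.lt_mul_div_succ N hD0).le.trans (le_of_eq (mul_comm _ _))

/-- **The condition is necessary**, but for sums with a prime `≤ k + 1`. -/
theorem small_prime_of_not_admissible {k n p q : ℕ} (hk : 0 < k) (hn : ¬IsAdmissible k n)
    (hp : p.Prime) (hq : q.Prime) (h : p + q ^ k = n) : p ≤ k + 1 ∨ q ≤ k + 1 := by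
  rw [IsAdmissible] at hn
  push Not at hn
  obtain ⟨r, hr, hd, hn1⟩ := hn
  have hrk := le_succ_of_sub_one_dvd hk hd
  have : Fact r.Prime := ⟨hr⟩
  by_cases hrq : r = q
  · exact Or.inr (hrq ▸ hrk)
  refine Or.inl ?_
  have hq0 : (q : ZMod r) ≠ 0 := fun h0 => hrq
    ((Nat.prime_dvd_prime_iff_eq hr hq).1 ((ZMod.natCast_eq_zero_iff q r).1 h0))
  obtain ⟨m, hm⟩ := hd
  have hqk : (q : ZMod r) ^ k = 1 := by rw [hm, pow_mul, ZMod.pow_card_sub_one_eq_one hq0, one_pow]
  have hp0 : (p : ZMod r) = 0 := by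
    have h1 : ((p + q ^ k : ℕ) : ZMod r) = ((1 : ℕ) : ZMod r) :=
      h ▸ (ZMod.natCast_eq_natCast_iff _ _ _).2 hn1
    push_cast at h1
    rw [hqk] at h1
    exact add_eq_right.1 h1
  exact ((Nat.prime_dvd_prime_iff_eq hr hp).1 ((ZMod.natCast_eq_zero_iff p r).1 hp0)) ▸ hrk

open Classical in
theorem eventually_sporadic_le {k : ℕ} (hk : 2 ≤ k) {ε : ℝ} (hε : 0 < ε) :
    ∀ᶠ N : ℕ in atTop, (((Ioc 0 N).filter fun n =>
      ¬IsAdmissible k n ∧ IsPrimePlusPrimePower k n).card : ℝ) ≤ ε * N := by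
  obtain ⟨B, hB⟩ : ∃ B : ℝ, B = ((k : ℝ) + 1) * (Real.log 4 + 2) := ⟨_, rfl⟩
  have hlog4 : 0 < Real.log 4 := Real.log_pos (by norm_num)
  have hB0 : 0 < B := by rw [hB]; positivity
  filter_upwards [tendsto_natCast_atTop_atTop.eventually
      (Chebyshev.eventually_primeCounting_le one_pos), eventually_ge_atTop 2,
    (Real.tendsto_log_atTop.comp tendsto_natCast_atTop_atTop).eventually_ge_atTop (B / ε)]
    with N hπ hN2 hlN
  simp only [Function.comp_apply] at hlN
  rw [Nat.floor_natCast] at hπ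
  have hN0 : (0 : ℝ) < N := Nat.cast_pos.2 (by omega)
  have hl0 : 0 < Real.log N := Real.log_pos (by exact_mod_cast (show 1 < N by omega))
  obtain ⟨hS1, hS2, -, hPS, -⟩ :=
    PrimePlusPower.powerScale_spec hk (show 1 ≤ N by omega)
  obtain ⟨P, hP⟩ : ∃ P, P = WaringAsymptotic.rootFloor k N := ⟨_, rfl⟩
  have hsub : (Ioc 0 N).filter (fun n => ¬IsAdmissible k n ∧ IsPrimePlusPrimePower k n) ⊆
      ((range (N + 1)).filter Nat.Prime ×ˢ Ioc 0 (k + 1) ∪ Ioc 0 (k + 1) ×ˢ Ioc 0 P).image
        fun z => z.1 + z.2 ^ k := by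
    intro n hn
    simp only [mem_filter, mem_Ioc] at hn
    obtain ⟨hnN, hadm, p, q, hp, hq, he⟩ := hn
    refine mem_image.2 ⟨(p, q), ?_, he⟩
    rw [mem_union, mem_product, mem_product, mem_filter, mem_range, mem_Ioc, mem_Ioc, mem_Ioc]
    rcases small_prime_of_not_admissible (by omega) hadm hp hq he with h | h
    · refine Or.inr ⟨⟨hp.pos, h⟩, hq.pos, ?_⟩
      by_contra hlt
      have h1 := Nat.pow_le_pow_left (show P + 1 ≤ q by omega) k
      have h2 := (WaringAsymptotic.rootFloor_spec (show 1 ≤ k by omega)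
        (show 1 ≤ N by omega)).2.2
      rw [← hP] at h2
      omega
    · exact Or.inl ⟨⟨by omega, hp⟩, hq.pos, h⟩
  refine (Nat.cast_le.2 ((card_le_card hsub).trans (card_image_le.trans
    (card_union_le _ _)))).trans ?_
  rw [card_product, card_product, Nat.card_Ioc, Nat.card_Ioc, Nat.sub_zero, Nat.sub_zero]
  push_cast
  have hπ' : (((range (N + 1)).filter Nat.Prime).card : ℝ) ≤
      (Real.log 4 + 1) * N / Real.log N := by
    refine le_trans (le_of_eq ?_) hπ
    rw [Nat.primeCounting, Nat.primeCounting', Nat.count_eq_card_filter_range]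
  have hPN : (P : ℝ) ≤ N / Real.log N := by
    have h1 : (P : ℝ) ≤ √(N : ℝ) := by
      refine Real.le_sqrt_of_sq_le (le_trans ?_ hS2)
      exact pow_le_pow_left₀ (Nat.cast_nonneg _) (hP ▸ hPS) 2
    refine h1.trans ?_
    rw [le_div_iff₀ hl0]
    have h3 : Real.log N ≤ √(N : ℝ) := by
      have h4 := Real.log_le_sub_one_of_pos (show (0 : ℝ) < √(√(N : ℝ)) by positivity)
      rw [Real.log_sqrt (Real.sqrt_nonneg _), Real.log_sqrt hN0.le] at h4
      have h5 := Real.mul_self_sqrt (Real.sqrt_nonneg (N : ℝ))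
      nlinarith [sq_nonneg (√(√(N : ℝ)) - 2)]
    calc √(N : ℝ) * Real.log N ≤ √(N : ℝ) * √(N : ℝ) :=
          mul_le_mul_of_nonneg_left h3 (Real.sqrt_nonneg _)
      _ = N := Real.mul_self_sqrt hN0.le
  rw [div_le_iff₀ hε] at hlN
  calc (((range (N + 1)).filter Nat.Prime).card : ℝ) * ((k : ℝ) + 1) + ((k : ℝ) + 1) * P
      ≤ (Real.log 4 + 1) * N / Real.log N * ((k : ℝ) + 1) + ((k : ℝ) + 1) * (N / Real.log N) := by
        gcongr
    _ = B * (N / Real.log N) := by rw [hB]; ring
    _ ≤ _ := by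
        rw [mul_div_assoc', div_le_iff₀ hl0]
        nlinarith

open Classical in
/-- **The density of the sums.** -/
theorem tendsto_density {k : ℕ} (hk : 2 ≤ k) : Tendsto (fun N : ℕ =>
    (((Ioc 0 N).filter fun n => IsPrimePlusPrimePower k n).card : ℝ) / N) atTop
    (𝓝 (((admissibleModulus k).totient : ℝ) / admissibleModulus k)) := by
  obtain ⟨D, hD⟩ : ∃ D, D = admissibleModulus k := ⟨_, rfl⟩
  have hD0 : 0 < D := hD ▸ admissibleModulus_pos k
  have hDr : (0 : ℝ) < D := Nat.cast_pos.2 hD0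
  rw [← hD, Metric.tendsto_nhds]
  intro ε hε
  filter_upwards [eventually_exceptions_le hk (show 0 < ε / 4 by positivity),
    eventually_sporadic_le hk (show 0 < ε / 4 by positivity), eventually_ge_atTop 1,
    tendsto_natCast_atTop_atTop.eventually_ge_atTop (4 * (D : ℝ) / ε)] with N h1 h2 hN hND
  have hN0 : (0 : ℝ) < N := Nat.cast_pos.2 hN
  obtain ⟨h3, h4⟩ := card_admissible_bounds (show 0 < k by omega) N
  rw [← hD] at h3 h4
  obtain ⟨R, hR⟩ : ∃ R : Finset ℕ, R = (Ioc 0 N).filter fun n => IsPrimePlusPrimePower k n :=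
    ⟨_, rfl⟩
  obtain ⟨A, hA⟩ : ∃ A : Finset ℕ, A = (Ioc 0 N).filter fun n => IsAdmissible k n := ⟨_, rfl⟩
  rw [← hA] at h3 h4
  rw [← hR]
  obtain ⟨X, hX⟩ : ∃ X : Finset ℕ, X = (Ioc 0 N).filter fun n =>
    IsAdmissible k n ∧ ¬IsPrimePlusPrimePower k n := ⟨_, rfl⟩
  obtain ⟨Z, hZ⟩ : ∃ Z : Finset ℕ, Z = (Ioc 0 N).filter fun n =>
    ¬IsAdmissible k n ∧ IsPrimePlusPrimePower k n := ⟨_, rfl⟩
  rw [← hX] at h1
  rw [← hZ] at h2
  have hRA : R.card ≤ A.card + Z.card := by
    refine (card_le_card fun n hn => ?_).trans (card_union_le A Z)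
    rw [hR, mem_filter] at hn
    rw [mem_union, hA, hZ, mem_filter, mem_filter]
    by_cases h : IsAdmissible k n
    · exact Or.inl ⟨hn.1, h⟩
    · exact Or.inr ⟨hn.1, h, hn.2⟩
  have hAR : A.card ≤ R.card + X.card := by
    refine (card_le_card fun n hn => ?_).trans (card_union_le R X)
    rw [hA, mem_filter] at hn
    rw [mem_union, hR, hX, mem_filter, mem_filter]
    by_cases h : IsPrimePlusPrimePower k n
    · exact Or.inl ⟨hn.1, h⟩
    · exact Or.inr ⟨hn.1, hn.2, h⟩
  have hRA' : (R.card : ℝ) ≤ A.card + Z.card := by exact_mod_cast hRA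
  have hAR' : (A.card : ℝ) ≤ R.card + X.card := by exact_mod_cast hAR
  have hlo : ((N / D : ℕ) : ℝ) * D.totient ≤ A.card := by exact_mod_cast h3
  have hhi : (A.card : ℝ) ≤ (((N / D : ℕ) : ℝ) + 1) * D.totient := by exact_mod_cast h4
  have hm : ((N / D : ℕ) : ℝ) * D ≤ N ∧ (N : ℝ) ≤ (((N / D : ℕ) : ℝ) + 1) * D := by
    refine ⟨?_, ?_⟩
    · exact_mod_cast Nat.div_mul_le_self N D
    · have := (Nat.lt_mul_div_succ N hD0).le
      rw [mul_comm] at this
      exact_mod_cast this
  obtain ⟨r, hr⟩ : ∃ r : ℝ, r = (D.totient : ℝ) / D := ⟨_, rfl⟩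
  have hr0 : 0 ≤ r := by rw [hr]; positivity
  have hr1 : r ≤ 1 := by
    rw [hr, div_le_one hDr]
    exact_mod_cast Nat.totient_le D
  rw [← hr]
  have hφ : (D.totient : ℝ) = r * D := by rw [hr]; field_simp
  rw [hφ] at hlo hhi
  rw [div_le_iff₀ hε] at hND
  rw [Real.dist_eq, abs_lt, lt_sub_iff_add_lt, sub_lt_iff_lt_add, lt_div_iff₀ hN0,
    div_lt_iff₀ hN0]
  have h5 := mul_le_mul_of_nonneg_left hm.1 hr0
  have h6 := mul_le_mul_of_nonneg_left hm.2 hr0
  have h7 := mul_le_mul_of_nonneg_right hr1 hDr.le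
  constructor <;> nlinarith

theorem admissibleModulus_two : admissibleModulus 2 = 6 := by
  rw [admissibleModulus, show (range (2 + 2)).filter (fun p => p.Prime ∧ (p - 1) ∣ 2) = {2, 3} from
    by decide]
  rfl

theorem isAdmissible_two_iff {n : ℕ} (hn : 1 ≤ n) :
    IsAdmissible 2 n ↔ n % 6 = 0 ∨ n % 6 = 2 := by
  rw [isAdmissible_iff_coprime two_pos hn, admissibleModulus_two, show (6 : ℕ) = 2 * 3 by rfl,
    Nat.coprime_mul_iff_left, Nat.prime_two.coprime_iff_not_dvd,
    Nat.prime_three.coprime_iff_not_dvd]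
  omega

end FA.PrimePlusPrimePower
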