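import Fermat.Agent.PrimePlusPrimePower.Circle
import Fermat.Agent.PrimePlusPower.Main

/-!
# Almost all admissible numbers are a prime plus the `k`-th power of a prime

An admissible exception in `(ε N / 2, N]` has a small partial singular series, many representations
with a prime power, or a large deviation.
-/

set_option autoImplicit false

noncomputable section

namespace FA.PrimePlusPrimePower

open Finset FA.ThreePrimes ArithmeticFunction Filter Topology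
open FA.PrimePlusPower (powerVars powerWeight powerScale powerScale_spec powerWeight_lower
  exists_log_pow_le_scale)
open scoped Real

/-- `n = p + q ^ k` with primes `p` and `q`. -/
def IsPrimePlusPrimePower (k n : ℕ) : Prop := ∃ p q : ℕ, p.Prime ∧ q.Prime ∧ p + q ^ k = n

/-- The part of `Λ m Λ x` off the pairs of primes. -/
def pairDefect (m x : ℕ) : ℝ := powerPart m * Λ x + Λ m * powerPart x

theorem pairDefect_nonneg (m x : ℕ) : 0 ≤ pairDefect m x :=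
  add_nonneg (mul_nonneg (powerPart_nonneg m) vonMangoldt_nonneg)
    (mul_nonneg vonMangoldt_nonneg (powerPart_nonneg x))

theorem jointReps_le_defect {k N n : ℕ} (h : ¬IsPrimePlusPrimePower k n) :
    jointReps primePair k N n ≤ jointReps pairDefect k N n := by
  refine sum_le_sum fun z hz => ?_
  have h1 : 0 ≤ powerPart z.1 * Λ z.2 := mul_nonneg (powerPart_nonneg _) vonMangoldt_nonneg
  have h2 : 0 ≤ Λ z.1 * powerPart z.2 := mul_nonneg vonMangoldt_nonneg (powerPart_nonneg _)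
  rw [pairDefect, primePair]
  rw [mem_filter] at hz
  by_cases hp : z.1.Prime
  · have hx : ¬z.2.Prime := fun hx => h ⟨z.1, z.2, hp, hx, hz.2⟩
    rw [show powerPart z.2 = Λ z.2 by rw [powerPart, if_neg hx]] at h2 ⊢
    linarith
  · rw [show powerPart z.1 = Λ z.1 by rw [powerPart, if_neg hp]] at h1 ⊢
    linarith

/-- **The pairs with a prime power are negligible on average.** -/
theorem exists_sum_defect_le {k : ℕ} (hk : 2 ≤ k) : ∃ C : ℝ, 0 < C ∧ ∀ N : ℕ, 1 ≤ N →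
    1 ≤ Real.log N →
    ∑ n ∈ Ioc 0 N, jointReps pairDefect k N n ≤ C * (powerScale k N * N / Real.log N) := by
  obtain ⟨K₁, hK₁, hpow₁⟩ := exists_log_pow_le 2
  obtain ⟨K₂, hK₂, hpow₂⟩ := exists_log_pow_le_scale hk 4
  refine ⟨12 * (K₁ + √K₂), by positivity, fun N hN hl1 => ?_⟩
  obtain ⟨l, hl⟩ : ∃ l, l = Real.log N := ⟨_, rfl⟩
  rw [← hl] at hl1 ⊢
  have hl0 : 0 < l := by linarith
  have hN1 : (1 : ℝ) ≤ N := by exact_mod_cast hN
  have hN0 : (0 : ℝ) < N := by linarith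
  obtain ⟨hS1, -, -, hPS, -⟩ := powerScale_spec hk hN
  obtain ⟨hP1, hPN, -⟩ := WaringAsymptotic.rootFloor_spec (show 1 ≤ k by omega) hN
  obtain ⟨P, hP⟩ : ∃ P, P = WaringAsymptotic.rootFloor k N := ⟨_, rfl⟩
  rw [← hP] at hPS hP1 hPN
  obtain ⟨S, hS⟩ : ∃ S, S = powerScale k N := ⟨_, rfl⟩
  rw [← hS] at hS1 hPS ⊢
  refine (sum_fiberwise_le_sum_of_sum_fiber_nonneg fun y _ => sum_nonneg fun z _ =>
    pairDefect_nonneg z.1 z.2).trans ?_
  rw [powerVars, sum_product]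
  simp only [pairDefect, sum_add_distrib, ← mul_sum, ← sum_mul, ← hP]
  have hA : ∑ m ∈ Ioc 0 N, powerPart m ≤ 2 * √(N : ℝ) * l := by
    rw [show Ioc 0 N = Icc 1 N by ext; simp; omega, hl]
    exact sum_powerPart_le hN
  have hB : ∑ x ∈ Ioc 0 P, powerPart x ≤ 2 * √S * l := by
    rw [show Ioc 0 P = Icc 1 P by ext; simp; omega, hl]
    refine (sum_powerPart_le hP1).trans (mul_le_mul (mul_le_mul_of_nonneg_left
      (Real.sqrt_le_sqrt hPS) two_pos.le) (Real.log_le_log (Nat.cast_pos.2 hP1) ?_)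
      (Real.log_nonneg (by exact_mod_cast hP1)) (by positivity))
    exact_mod_cast (Nat.le_self_pow (by omega) P).trans hPN
  have hC : ∑ x ∈ Ioc 0 P, Λ x ≤ 6 * S := (sum_vonMangoldt_le P).trans (by linarith)
  refine (add_le_add (mul_le_mul hA hC (sum_nonneg fun _ _ => vonMangoldt_nonneg) (by positivity))
    (mul_le_mul (sum_vonMangoldt_le N) hB (sum_nonneg fun x _ => powerPart_nonneg x)
      (by positivity))).trans ?_
  have h1 : l ^ 2 ≤ K₁ * √(N : ℝ) := hl ▸ hpow₁ N hN1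
  have h2 : l ^ 2 ≤ √K₂ * √S := by
    have := hpow₂ N hN
    rw [← hl, ← hS] at this
    rw [← Real.sqrt_mul hK₂.le,
      show l ^ 2 = √((l ^ 2) ^ 2) from (Real.sqrt_sq (by positivity)).symm]
    exact Real.sqrt_le_sqrt (le_of_eq_of_le (by ring) this)
  rw [mul_div_assoc', le_div_iff₀ hl0]
  calc (2 * √(N : ℝ) * l * (6 * S) + 6 * (N : ℝ) * (2 * √S * l)) * l
      = 12 * (S * (√(N : ℝ) * l ^ 2) + (N : ℝ) * (√S * l ^ 2)) := by ring
    _ ≤ 12 * (S * (√(N : ℝ) * (K₁ * √(N : ℝ))) + (N : ℝ) * (√S * (√K₂ * √S))) := by gcongr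
    _ = 12 * (K₁ * S * (√(N : ℝ) * √(N : ℝ)) + √K₂ * N * (√S * √S)) := by ring
    _ = _ := by rw [Real.mul_self_sqrt hN0.le, Real.mul_self_sqrt (by linarith)]; ring

open Classical in
/-- **The theorem of Hua: almost all admissible numbers are a prime plus the `k`-th power of a
prime.** -/
theorem eventually_exceptions_le {k : ℕ} (hk : 2 ≤ k) {ε : ℝ} (hε : 0 < ε) :
    ∀ᶠ N : ℕ in atTop, (((Ioc 0 N).filter fun n =>
      IsAdmissible k n ∧ ¬IsPrimePlusPrimePower k n).card : ℝ) ≤ ε * N := by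
  have hk0 : (0 : ℝ) < k := Nat.cast_pos.2 (by omega)
  obtain ⟨τ, hτ⟩ : ∃ τ : ℝ, τ = 1 / 4 := ⟨_, rfl⟩
  have hτ0 : 0 < τ := by rw [hτ]; norm_num
  obtain ⟨A, hA'⟩ : ∃ A : ℝ, A = 4 * (k : ℝ) := ⟨_, rfl⟩
  obtain ⟨C₁, hC₁, hrest⟩ := exists_joint_rest (show 1 ≤ k by omega)
  obtain ⟨c, hc, hlow⟩ := exists_smoothJoint_ge hk
  rw [← hA'] at hlow
  obtain ⟨K, N₀, C₂, hK, hC₂, hdev⟩ := exists_deviation_le hk
  obtain ⟨C₃, hC₃, hdef⟩ := exists_sum_defect_le hk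
  obtain ⟨K₀, hK₀, hpow⟩ := exists_log_pow_le (6 * K + 1)
  obtain ⟨w, hw3, hw⟩ : ∃ w : ℕ, 3 ≤ w ∧
      4 * C₁ / c ^ 2 * (Real.log w ^ (2 * A) * (w : ℝ) ^ (-τ)) ≤ ε / 8 := by
    have h := ((isLittleO_log_rpow_rpow_atTop (2 * A) hτ0).comp_tendsto
      tendsto_natCast_atTop_atTop).bound (show 0 < ε / 8 / (4 * C₁ / c ^ 2) by positivity)
    obtain ⟨T, hT⟩ := eventually_atTop.1 h
    refine ⟨max 3 T, le_max_left _ _, ?_⟩
    obtain ⟨w, hw⟩ : ∃ w, w = max 3 T := ⟨_, rfl⟩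
    rw [← hw]
    have hw0 : (0 : ℝ) < w := Nat.cast_pos.2 (by omega)
    have h' := hT w (hw ▸ le_max_right _ _)
    simp only [Function.comp_apply, Real.norm_eq_abs] at h'
    rw [abs_of_nonneg (Real.rpow_nonneg (Real.log_natCast_nonneg w) _),
      abs_of_nonneg (Real.rpow_nonneg hw0.le _), div_mul_eq_mul_div,
      le_div_iff₀ (by positivity)] at h'
    rw [Real.rpow_neg hw0.le, ← mul_assoc, ← div_eq_mul_inv, div_le_iff₀ (by positivity)]
    linarith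
  obtain ⟨cw, hcw⟩ : ∃ cw : ℝ, cw = c / Real.log w ^ A := ⟨_, rfl⟩
  have hlw : 0 < Real.log w := Real.log_pos (by exact_mod_cast (show 1 < w by omega))
  have hcw0 : 0 < cw := by rw [hcw]; positivity
  obtain ⟨X, hX⟩ : ∃ X : ℝ, X = (ε / 2) ^ (1 / (k : ℝ)) * cw / 16 := ⟨_, rfl⟩
  have hX0 : 0 < X := by rw [hX]; positivity
  obtain ⟨b, hb⟩ : ∃ b : ℝ, b = 4 * K₀ / cw ^ 2 + C₃ / X + C₂ / X ^ 2 := ⟨_, rfl⟩
  refine eventually_atTop.2 ⟨max (max N₀ ⌈Real.exp (max (max (FourCubes.smoothModulus w : ℝ)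
    (4 * b / ε)) 1)⌉₊) (max 1 ⌈2 * 4 ^ k / ε⌉₊), fun N hN => ?_⟩
  simp only [max_le_iff] at hN
  have hN1 : (1 : ℝ) ≤ N := by exact_mod_cast hN.2.1
  have hN0 : (0 : ℝ) < N := by linarith
  obtain ⟨hl1, hd⟩ := hdev N hN.1.1
  have hDsum := hdef N hN.2.1 hl1
  obtain ⟨hS1, -, -, -, -⟩ := powerScale_spec hk hN.2.1
  obtain ⟨S, hS⟩ : ∃ S, S = powerScale k N := ⟨_, rfl⟩
  rw [← hS] at hd hS1 hDsum
  obtain ⟨l, hl⟩ : ∃ l, l = Real.log N := ⟨_, rfl⟩
  rw [← hl] at hl1 hd hDsum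
  have hl0 : 0 < l := by linarith
  have hlge : max (max (FourCubes.smoothModulus w : ℝ) (4 * b / ε)) 1 ≤ l := by
    rw [hl, Real.le_log_iff_exp_le hN0]
    exact (Nat.le_ceil _).trans (Nat.cast_le.2 hN.1.2)
  simp only [max_le_iff] at hlge
  obtain ⟨Q, hQ⟩ : ∃ Q, Q = ⌊l ^ K⌋₊ := ⟨_, rfl⟩
  rw [← hQ] at hd
  have hWQ : FourCubes.smoothModulus w ≤ Q :=
    hQ ▸ Nat.le_floor (hlge.1.1.trans (le_self_pow₀ hl1 (by omega)))
  have hsN : √(N : ℝ) ≤ N := by
    rw [Real.sqrt_le_left hN0.le]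
    nlinarith
  have hQ6 : (Q : ℝ) ^ 6 ≤ K₀ * (N / l) := by
    rw [mul_div_assoc', le_div_iff₀ hl0]
    calc (Q : ℝ) ^ 6 * l ≤ (l ^ K) ^ 6 * l := by
          gcongr
          exact hQ ▸ Nat.floor_le (by positivity)
      _ = l ^ (6 * K + 1) := by ring
      _ ≤ K₀ * √(N : ℝ) := hl ▸ hpow N hN1
      _ ≤ K₀ * N := mul_le_mul_of_nonneg_left hsN hK₀.le
  obtain ⟨G, hG⟩ : ∃ G : ℕ → ℝ, G = fun n =>
      ‖∑ q ∈ Icc 1 Q, jointTerm k n q - (smoothJoint k n w : ℂ)‖ := ⟨_, rfl⟩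
  obtain ⟨D, hD⟩ : ∃ D : ℕ → ℝ, D = fun n => jointReps pairDefect k N n := ⟨_, rfl⟩
  obtain ⟨E, hE⟩ : ∃ E : ℕ → ℝ, E = fun n => ‖(jointReps primePair k N n : ℂ) -
      (powerWeight k N n : ℂ) * ∑ q ∈ Icc 1 Q, jointTerm k n q‖ := ⟨_, rfl⟩
  have hD0 : ∀ n, 0 ≤ D n := fun n => hD ▸ sum_nonneg fun z _ => pairDefect_nonneg z.1 z.2
  obtain ⟨Y, hY⟩ : ∃ Y : ℝ, Y = X * S := ⟨_, rfl⟩
  have hY0 : 0 < Y := by rw [hY]; positivity
  have hsub : (Ioc 0 N).filter (fun n => IsAdmissible k n ∧ ¬IsPrimePlusPrimePower k n) ⊆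
      Ioc 0 ⌊ε / 2 * N⌋₊ ∪ ((Ioc 0 N).filter (fun n => cw / 2 ≤ G n) ∪
        ((Ioc 0 N).filter (fun n => Y ≤ D n) ∪ (Ioc 0 N).filter (fun n => Y ≤ E n))) := by
    intro n hn
    simp only [mem_filter, mem_Ioc] at hn
    simp only [mem_union, mem_filter, mem_Ioc]
    by_cases hsmall : n ≤ ⌊ε / 2 * N⌋₊
    · exact Or.inl ⟨hn.1.1, hsmall⟩
    by_cases hA : cw / 2 ≤ G n
    · exact Or.inr (Or.inl ⟨hn.1, hA⟩)
    by_cases hB : Y ≤ D n
    · exact Or.inr (Or.inr (Or.inl ⟨hn.1, hB⟩))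
    refine Or.inr (Or.inr (Or.inr ⟨hn.1, ?_⟩))
    have hbig : ε / 2 * N < n := (Nat.floor_lt (by positivity)).1 (not_le.1 hsmall)
    have h4 : 4 ^ k ≤ n := by
      have h1 : 2 * 4 ^ k / ε ≤ N := (Nat.le_ceil _).trans (Nat.cast_le.2 hN.2.2)
      rw [div_le_iff₀ hε] at h1
      have h2 : (4 : ℝ) ^ k < n := by linarith
      exact_mod_cast h2.le
    have hJ : (ε / 2) ^ (1 / (k : ℝ)) * S / 4 ≤ powerWeight k N n := by
      refine le_trans ?_ (powerWeight_lower hk hn.1.2 h4)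
      rw [hS, powerScale, ← Real.mul_rpow (by positivity) hN0.le]
      exact div_le_div_of_nonneg_right (Real.rpow_le_rpow (by positivity) hbig.le (by positivity))
        (by norm_num)
    obtain ⟨Z, hZ⟩ : ∃ Z, Z = ∑ q ∈ Icc 1 Q, jointTerm k n q := ⟨_, rfl⟩
    have hZn : cw / 2 ≤ ‖Z‖ := by
      have h1 : cw ≤ ‖(smoothJoint k n w : ℂ)‖ := by
        rw [Complex.norm_real, Real.norm_eq_abs]
        exact (hcw ▸ hlow w hw3 n hn.2.1).trans (le_abs_self _)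
      have h2 := norm_le_norm_add_norm_sub Z (smoothJoint k n w : ℂ)
      simp only [hG] at hA
      rw [← hZ] at hA
      linarith
    rw [hE]
    simp only
    rw [← hZ, norm_sub_rev]
    refine le_trans ?_ (norm_sub_norm_le _ _)
    have hR : ‖(jointReps primePair k N n : ℂ)‖ ≤ Y := by
      rw [Complex.norm_real, Real.norm_eq_abs, abs_of_nonneg
        (show 0 ≤ jointReps primePair k N n from
          sum_nonneg fun z _ => mul_nonneg vonMangoldt_nonneg vonMangoldt_nonneg)]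
      simp only [hD] at hB
      exact (jointReps_le_defect hn.2.2).trans (not_le.1 hB).le
    have hM : 2 * Y ≤ ‖(powerWeight k N n : ℂ) * Z‖ := by
      rw [norm_mul, Complex.norm_real, Real.norm_eq_abs,
        abs_of_nonneg (le_trans (by positivity) hJ)]
      refine le_trans (le_of_eq ?_)
        (mul_le_mul hJ hZn (by positivity) (le_trans (by positivity) hJ))
      rw [hY, hX]
      ring
    linarith
  refine (Nat.cast_le.2 ((card_le_card hsub).trans ((card_union_le _ _).trans (add_le_add le_rfl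
    ((card_union_le _ _).trans (add_le_add le_rfl (card_union_le _ _))))))).trans ?_
  push_cast
  have hcount : ∀ (F : ℕ → ℝ) (x : ℝ), 0 < x → (∀ n, 0 ≤ F n) →
      (((Ioc 0 N).filter fun n => x ≤ F n).card : ℝ) ≤ (∑ n ∈ Ioc 0 N, F n) / x := by
    intro F x hx hF
    rw [le_div_iff₀ hx]
    refine le_trans ?_ ((card_nsmul_le_sum _ _ x fun n hn => (mem_filter.1 hn).2).trans
      (sum_le_sum_of_subset_of_nonneg (filter_subset _ _) fun n _ _ => hF n))
    rw [nsmul_eq_mul]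
  have hsq : ∀ (F : ℕ → ℝ) (x : ℝ), 0 < x →
      (((Ioc 0 N).filter fun n => x ≤ F n).card : ℝ) ≤ (∑ n ∈ Ioc 0 N, F n ^ 2) / x ^ 2 :=
    fun F x hx => le_trans (Nat.cast_le.2 (card_le_card fun n hn => by
      rw [mem_filter] at hn ⊢
      exact ⟨hn.1, pow_le_pow_left₀ hx.le hn.2 2⟩))
      (hcount (fun n => F n ^ 2) _ (by positivity) fun n => sq_nonneg _)
  have hA : (((Ioc 0 N).filter fun n => cw / 2 ≤ G n).card : ℝ) ≤
      ε / 8 * N + 4 * K₀ / cw ^ 2 * (N / l) := by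
    refine (hsq G (cw / 2) (by positivity)).trans ?_
    rw [div_le_iff₀ (by positivity), hG]
    refine (hrest w Q N (by omega) hWQ).trans ((add_le_add le_rfl hQ6).trans ?_)
    rw [show (-(1 / 4) : ℝ) = -τ by rw [hτ]]
    have h2 : C₁ * ((N : ℝ) * (w : ℝ) ^ (-τ)) ≤ ε / 8 * N * (cw / 2) ^ 2 := by
      have h3 := mul_le_mul_of_nonneg_right hw (mul_nonneg hN0.le (sq_nonneg (cw / 2)))
      have e : Real.log w ^ (2 * A) = (Real.log w ^ A) ^ 2 := by
        rw [← Real.rpow_natCast (Real.log w ^ _) 2, ← Real.rpow_mul hlw.le]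
        push_cast
        ring_nf
      rw [e, hcw] at h3
      rw [hcw]
      refine le_trans (le_of_eq ?_) (h3.trans (le_of_eq (by ring)))
      have : Real.log w ^ A ≠ 0 := (Real.rpow_pos_of_pos hlw _).ne'
      field_simp
      ring
    have h4 : K₀ * ((N : ℝ) / l) = 4 * K₀ / cw ^ 2 * (N / l) * (cw / 2) ^ 2 := by
      field_simp
      ring
    linarith
  have hB : (((Ioc 0 N).filter fun n => Y ≤ D n).card : ℝ) ≤ C₃ / X * (N / l) := by
    refine (hcount D Y hY0 hD0).trans ?_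
    rw [div_le_iff₀ hY0]
    refine le_trans (le_of_eq (sum_congr rfl fun n _ => congrFun hD n))
      (hDsum.trans (le_of_eq ?_))
    rw [hY]
    field_simp
  have hC : (((Ioc 0 N).filter fun n => Y ≤ E n).card : ℝ) ≤ C₂ / X ^ 2 * (N / l) := by
    refine (hsq E Y hY0).trans ?_
    rw [div_le_iff₀ (by positivity), hE]
    refine hd.trans (le_of_eq ?_)
    rw [hY, mul_pow]
    field_simp
  have h0 : ((Ioc 0 ⌊ε / 2 * N⌋₊).card : ℝ) ≤ ε / 2 * N := by
    rw [Nat.card_Ioc, Nat.sub_zero]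
    exact Nat.floor_le (by positivity)
  have hbl : b * (N / l) ≤ ε / 4 * N := by
    have h1 := hlge.1.2
    rw [div_le_iff₀ hε] at h1
    rw [mul_div_assoc', div_le_iff₀ hl0]
    nlinarith
  rw [hb] at hbl
  nlinarith

end FA.PrimePlusPrimePower
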