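import Fermat.Agent.WaringGoldbach.Singular
import Fermat.Agent.PrimePlusPower.Singular
import Fermat.Agent.BurgessComposite.Inequality

/-!
# The singular series of a prime and the `k`-th power of a prime

Its term at `q` is `μ q / φ q` times the term of one power of a prime. Over the divisors of `W` it
sums to `∏ p ν' / (p - 1) ^ 2`, `ν'` the number of units `x` modulo `p` with `x ^ k ≠ n`, positive
for every `p` exactly when `n ≢ 1` modulo every prime `p` with `(p - 1) ∣ k`; the rest of a partial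
sum is small in mean square.
-/

set_option autoImplicit false

noncomputable section

namespace FA.PrimePlusPrimePower

open Finset FA.ThreePrimes
open FA.PrimePlusSquare (norm_moebius_ratio_le moebiusR_primePow)
open FA.WaringGoldbach (unitFactor norm_unitFactor_le_one)

/-- The coefficient of a centre. -/
def jointCoeff (k : ℕ) (z : Σ _ : ℕ, ℕ) : ℂ :=
  ((moebiusR z.1 / z.1.totient : ℝ) : ℂ) * unitFactor k z.1 z.2

/-- The singular series term. -/
def jointTerm (k n q : ℕ) : ℂ :=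
  ((moebiusR q / q.totient : ℝ) : ℂ) * WaringGoldbach.primeTerm k 1 n q

theorem norm_jointCoeff_le_one (k : ℕ) (z : Σ _ : ℕ, ℕ) : ‖jointCoeff k z‖ ≤ 1 := by
  rw [jointCoeff, norm_mul]
  exact mul_le_one₀ (norm_moebius_ratio_le _) (norm_nonneg _) (norm_unitFactor_le_one _ _ _)

theorem jointTerm_eq_arcs (k n : ℕ) (A : Finset ℕ) :
    ∑ q ∈ A, jointTerm k n q =
      ∑ z ∈ A.sigma unitResidues, jointCoeff k z * eAdd (-((n : ℝ) * centre z)) := by
  rw [sum_sigma]
  refine sum_congr rfl fun q _ => ?_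
  rw [jointTerm, WaringGoldbach.primeTerm, mul_sum]
  refine sum_congr rfl fun r _ => ?_
  simp only [jointCoeff, WaringGoldbach.primeSummand, centre, pow_one, mul_div_assoc, mul_assoc]

theorem jointTerm_one (k n : ℕ) : jointTerm k n 1 = 1 := by
  simp [jointTerm, WaringGoldbach.primeTerm_one, moebiusR_isMultiplicative.1]

theorem jointTerm_mul (k n : ℕ) {a b : ℕ} (h : a.Coprime b) :
    jointTerm k n (a * b) = jointTerm k n a * jointTerm k n b := by
  rw [jointTerm, jointTerm, jointTerm, moebiusR_isMultiplicative.2 h, Nat.totient_mul h,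
    WaringGoldbach.primeTerm_mul k 1 n h]
  push_cast
  rw [mul_div_mul_comm]
  ring

theorem jointTerm_primePow_eq_zero (k n : ℕ) {p l : ℕ} (hp : p.Prime) (hl : 2 ≤ l) :
    jointTerm k n (p ^ l) = 0 := by
  rw [jointTerm, moebiusR_primePow hp (by omega), if_neg (by omega)]
  simp

/-! ### The local densities -/

/-- `n ≢ 1` modulo every prime `p` with `(p - 1) ∣ k`. -/
def IsAdmissible (k n : ℕ) : Prop := ∀ p : ℕ, p.Prime → (p - 1) ∣ k → ¬n ≡ 1 [MOD p]

/-- The units `x` modulo `p` with `x ^ k ≠ n`. -/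
def freeUnits (k n p : ℕ) : Finset ℕ :=
  (unitResidues p).filter fun x => ¬(p : ℤ) ∣ ((x ^ k : ℕ) : ℤ) - n

/-- `p ν' / (p - 1) ^ 2`. -/
def localFactorJoint (k n p : ℕ) : ℝ :=
  (p : ℝ) * (freeUnits k n p).card / ((p : ℝ) - 1) ^ 2

theorem one_add_jointTerm_prime (k n : ℕ) {p : ℕ} (hp : p.Prime) :
    1 + jointTerm k n p = (localFactorJoint k n p : ℂ) := by
  classical
  obtain ⟨T, hT⟩ : ∃ T, T = ((unitResidues p).filter fun x : ℕ =>
      (p : ℤ) ∣ ((x ^ k : ℕ) : ℤ) - n).card := ⟨_, rfl⟩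
  have hcard : T + (freeUnits k n p).card = p - 1 := by
    rw [hT, freeUnits, card_filter_add_card_filter_not, card_unitResidues, Nat.totient_prime hp]
  have hpi : ((Fintype.piFinset fun _ : Fin 1 => unitResidues p).filter
      fun z => (p : ℤ) ∣ ((∑ i, z i ^ k : ℕ) : ℤ) - n).card = T := by
    rw [hT]
    refine card_nbij' (fun z => z 0) (fun x _ => x) (fun z hz => ?_) (fun x hx => ?_)
      (fun z _ => funext fun i => congrArg z (Subsingleton.elim 0 i)) fun x _ => rfl
    · simp only [mem_coe, mem_filter, Fintype.mem_piFinset, Fin.sum_univ_one] at hz ⊢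
      exact ⟨hz.1 0, hz.2⟩
    · simp only [mem_coe, mem_filter, Fintype.mem_piFinset, Fin.sum_univ_one] at hx ⊢
      exact ⟨fun _ => hx.1, hx.2⟩
  have h1 := (WaringGoldbach.sum_primeSummand_primePow hp k 1 n 1).symm.trans
    (WaringGoldbach.sum_primeSummand_eq k 1 n (pow_pos hp.pos 1))
  rw [sum_range_succ, sum_range_one, pow_zero, WaringGoldbach.primeTerm_one] at h1
  simp only [pow_one] at h1
  rw [hpi, Nat.totient_prime hp] at h1
  have hμ : moebiusR p = -1 := by simpa using moebiusR_primePow hp one_ne_zero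
  rw [jointTerm, hμ, Nat.totient_prime hp, localFactorJoint, eq_sub_of_add_eq' h1]
  have hp1 : (2 : ℝ) ≤ p := by exact_mod_cast hp.two_le
  have hne : (p : ℝ) - 1 ≠ 0 := by linarith
  have hTr : (T : ℝ) = (p : ℝ) - 1 - (freeUnits k n p).card := by
    rw [eq_sub_iff_add_eq, ← Nat.cast_add, hcard, Nat.cast_sub hp.one_le, Nat.cast_one]
  rw [hTr, Nat.cast_sub hp.one_le, Nat.cast_one, ← Complex.ofReal_one, ← Complex.ofReal_sub,
    ← Complex.ofReal_mul, ← Complex.ofReal_add, Complex.ofReal_inj]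
  field_simp
  ring

theorem freeUnits_nonempty {k n p : ℕ} (hp : p.Prime) (hn : IsAdmissible k n) :
    (freeUnits k n p).Nonempty := by
  have : Fact p.Prime := ⟨hp⟩
  have key : ∀ x : ℕ, x < p → ¬p ∣ x → (x : ZMod p) ^ k ≠ (n : ZMod p) →
      (freeUnits k n p).Nonempty := by
    refine fun x hx hpx h => ⟨x, mem_filter.2 ⟨?_, fun hd => h ?_⟩⟩
    · rw [unitResidues, mem_filter, mem_range, hp.coprime_iff_not_dvd]
      exact ⟨hx, hpx⟩
    · rw [← ZMod.intCast_zmod_eq_zero_iff_dvd] at hd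
      push_cast at hd
      exact sub_eq_zero.1 hd
  by_cases h : (n : ZMod p) = 1
  · have hd : ¬(p - 1) ∣ k := fun hd =>
      hn p hp hd ((ZMod.natCast_eq_natCast_iff _ _ _).1 (by simpa using h))
    obtain ⟨y, hy, hpy, hy1⟩ := WaringGoldbach.exists_pow_ne_one hp hd
    exact key y hy hpy (h ▸ hy1)
  · exact key 1 hp.one_lt hp.not_dvd_one (by simpa using Ne.symm h)

theorem le_card_freeUnits {k p : ℕ} (hk : 0 < k) (hp : p.Prime) (n : ℕ) :
    (p : ℝ) - 1 - k ≤ (freeUnits k n p).card := by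
  classical
  have : Fact p.Prime := ⟨hp⟩
  have h1 : ((unitResidues p).filter fun x : ℕ => (p : ℤ) ∣ ((x ^ k : ℕ) : ℤ) - n).card ≤ k := by
    refine le_trans (card_le_card_of_injOn (fun x : ℕ => (x : ZMod p))
      (t := univ.filter fun x : ZMod p => x ^ k = (n : ZMod p)) (fun x hx => ?_) ?_)
      (WaringAsymptotic.card_pow_eq_le hk _)
    · simp only [mem_coe, mem_filter, mem_univ, true_and] at hx ⊢
      have h := hx.2
      rw [← ZMod.intCast_zmod_eq_zero_iff_dvd] at h
      push_cast at h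
      exact sub_eq_zero.1 h
    · intro x hx y hy e
      simp only [mem_coe, mem_filter, unitResidues, mem_range] at hx hy
      have h := congrArg ZMod.val e
      simpa only [ZMod.val_natCast_of_lt hx.1.1, ZMod.val_natCast_of_lt hy.1.1] using h
  have h2 := card_filter_add_card_filter_not (s := unitResidues p)
    (fun x : ℕ => (p : ℤ) ∣ ((x ^ k : ℕ) : ℤ) - n)
  rw [card_unitResidues, Nat.totient_prime hp] at h2
  have h3 : p ≤ (freeUnits k n p).card + k + 1 := by
    rw [freeUnits]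
    omega
  have h4 : (p : ℝ) ≤ (freeUnits k n p).card + k + 1 := by exact_mod_cast h3
  linarith

theorem localFactorJoint_ge {k p n : ℕ} (hk : 0 < k) (hp : p.Prime) (hn : IsAdmissible k n) :
    1 / (p : ℝ) ≤ localFactorJoint k n p ∧ 1 - 2 * (k : ℝ) / p ≤ localFactorJoint k n p := by
  have h1 := le_card_freeUnits hk hp n
  obtain ⟨ν, hν⟩ : ∃ ν : ℝ, ν = ((freeUnits k n p).card : ℝ) := ⟨_, rfl⟩
  have hν1 : 1 ≤ ν := hν ▸ Nat.one_le_cast.2 (card_pos.2 (freeUnits_nonempty hp hn))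
  rw [← hν] at h1
  have hp2 : (2 : ℝ) ≤ p := by exact_mod_cast hp.two_le
  rw [localFactorJoint, ← hν]
  constructor
  · rw [div_le_div_iff₀ (by linarith) (by nlinarith)]
    have := mul_le_mul_of_nonneg_left hν1 (mul_self_nonneg (p : ℝ))
    nlinarith
  · rw [le_div_iff₀ (by nlinarith), one_sub_div (by linarith), div_mul_eq_mul_div,
      div_le_iff₀ (by linarith)]
    have hk0 : (0 : ℝ) ≤ k := Nat.cast_nonneg k
    have h3 := mul_le_mul_of_nonneg_left h1 (mul_self_nonneg (p : ℝ))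
    have h4 := mul_nonneg hk0 (mul_nonneg (show (0 : ℝ) ≤ p - 2 by linarith)
      (show (0 : ℝ) ≤ p by linarith))
    nlinarith

/-- The singular series over the divisors of `W`. -/
def smoothJoint (k n w : ℕ) : ℝ := ∏ p ∈ ErdosKac.primesUpTo w, localFactorJoint k n p

theorem sum_divisors_smoothJoint (k n : ℕ) {w : ℕ} (hw : 1 ≤ w) :
    ∑ q ∈ (FourCubes.smoothModulus w).divisors, jointTerm k n q = (smoothJoint k n w : ℂ) := by
  classical
  obtain ⟨f, hf⟩ : ∃ f : ArithmeticFunction ℂ, f = ⟨jointTerm k n, by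
      simp [jointTerm, WaringGoldbach.primeTerm_zero]⟩ := ⟨_, rfl⟩
  have hfa : ∀ q, f q = jointTerm k n q := fun q => by rw [hf]; rfl
  have hmul : ArithmeticFunction.IsMultiplicative f :=
    ⟨by rw [hfa, jointTerm_one], fun {a b} h => by rw [hfa, hfa, hfa, jointTerm_mul k n h]⟩
  obtain ⟨g, hg⟩ : ∃ g : ArithmeticFunction ℂ, g = f * ↑ArithmeticFunction.zeta := ⟨_, rfl⟩
  have hga : ∀ m, g m = ∑ q ∈ m.divisors, jointTerm k n q := fun m => by
    rw [hg, ArithmeticFunction.coe_mul_zeta_apply]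
    exact sum_congr rfl fun q _ => hfa q
  have hgm : ArithmeticFunction.IsMultiplicative g :=
    hg ▸ hmul.mul ArithmeticFunction.isMultiplicative_zeta.natCast
  rw [← hga, FourCubes.smoothModulus, ArithmeticFunction.IsMultiplicative.map_prod _ hgm _
    fun p hp r hr hne => ((Nat.coprime_primes (ErdosKac.mem_primesUpTo.1 hp).1
      (ErdosKac.mem_primesUpTo.1 hr).1).2 hne).pow w w, smoothJoint, Complex.ofReal_prod]
  refine prod_congr rfl fun p hp => ?_
  have hp' := (ErdosKac.mem_primesUpTo.1 hp).1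
  rw [hga, Nat.sum_divisors_prime_pow hp', ← one_add_jointTerm_prime k n hp',
    ← sum_subset (range_subset_range.2 (show 2 ≤ w + 1 by omega)) fun l _ hl =>
      jointTerm_primePow_eq_zero k n hp' (by rw [mem_range] at hl; omega)]
  simp [sum_range_succ, jointTerm_one]

/-- **The lower bound.** -/
theorem exists_smoothJoint_ge {k : ℕ} (hk : 2 ≤ k) : ∃ c : ℝ, 0 < c ∧ ∀ w : ℕ, 3 ≤ w → ∀ n : ℕ,
    IsAdmissible k n → c / Real.log w ^ (4 * (k : ℝ)) ≤ smoothJoint k n w := by
  obtain ⟨C, hC⟩ := ErdosKac.exists_abs_recipSum_sub_le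
  obtain ⟨b, hb⟩ : ∃ b : ℕ, b = 4 * k := ⟨_, rfl⟩
  have hb0 : (0 : ℝ) < b := Nat.cast_pos.2 (by omega)
  refine ⟨(1 / (b : ℝ)) ^ b * Real.exp (-(4 * k * C)), mul_pos (by positivity) (Real.exp_pos _),
    fun w hw n hn => ?_⟩
  have hlw : 0 < Real.log w := Real.log_pos (by exact_mod_cast (show 1 < w by omega))
  rw [smoothJoint, ← prod_filter_mul_prod_filter_not (ErdosKac.primesUpTo w) (fun p => p < b)]
  have hsmall : (1 / (b : ℝ)) ^ b ≤
      ∏ p ∈ (ErdosKac.primesUpTo w).filter (fun p => p < b), localFactorJoint k n p := by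
    have hcard : ((ErdosKac.primesUpTo w).filter fun p => p < b).card ≤ b :=
      (card_le_card (t := range b) fun p hp => mem_range.2 (mem_filter.1 hp).2).trans
        (card_range b).le
    refine (pow_le_pow_of_le_one (by positivity) ?_ hcard).trans ?_
    · rw [div_le_one hb0]
      exact_mod_cast (show 1 ≤ b by omega)
    rw [← prod_const]
    refine prod_le_prod (fun _ _ => by positivity) fun p hp => ?_
    rw [mem_filter, ErdosKac.mem_primesUpTo] at hp
    refine le_trans ?_ (localFactorJoint_ge (show 0 < k by omega) hp.1.1 hn).1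
    exact one_div_le_one_div_of_le (Nat.cast_pos.2 hp.1.1.pos) (Nat.cast_le.2 hp.2.le)
  have hlarge : Real.exp (-(4 * k * C)) / Real.log w ^ (4 * (k : ℝ)) ≤
      ∏ p ∈ (ErdosKac.primesUpTo w).filter (fun p => ¬p < b), localFactorJoint k n p := by
    have h1 : ∀ p ∈ (ErdosKac.primesUpTo w).filter (fun p => ¬p < b),
        Real.exp (-(4 * k * (p : ℝ)⁻¹)) ≤ localFactorJoint k n p := by
      intro p hp
      rw [mem_filter, ErdosKac.mem_primesUpTo, not_lt, hb] at hp
      refine le_trans ?_ (localFactorJoint_ge (show 0 < k by omega) hp.1.1 hn).2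
      obtain ⟨x, hx⟩ : ∃ x : ℝ, x = 2 * (k : ℝ) / p := ⟨_, rfl⟩
      have hx0 : 0 ≤ x := by rw [hx]; positivity
      have hx2 : x ≤ 1 / 2 := by
        rw [hx, div_le_iff₀ (Nat.cast_pos.2 hp.1.1.pos)]
        have : (4 * (k : ℝ)) ≤ p := by exact_mod_cast hp.2
        linarith
      rw [show 4 * (k : ℝ) * (p : ℝ)⁻¹ = 2 * x by rw [hx]; ring, ← hx, Real.exp_neg,
        inv_le_iff_one_le_mul₀' (Real.exp_pos _)]
      nlinarith [Real.add_one_le_exp (2 * x), mul_nonneg hx0 (show 0 ≤ 1 - 2 * x by linarith)]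
    refine le_trans ?_ (prod_le_prod (fun _ _ => (Real.exp_pos _).le) h1)
    rw [← Real.exp_sum, Real.rpow_def_of_pos hlw, div_eq_mul_inv, ← Real.exp_neg, ← Real.exp_add,
      sum_neg_distrib, ← mul_sum]
    refine Real.exp_le_exp.2 ?_
    have hsum : ∑ p ∈ (ErdosKac.primesUpTo w).filter (fun p => ¬p < b), (p : ℝ)⁻¹ ≤
        ErdosKac.recipSum w :=
      sum_le_sum_of_subset_of_nonneg (filter_subset _ _) fun p _ _ => by positivity
    have := mul_le_mul_of_nonneg_left (hsum.trans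
      (show ErdosKac.recipSum w ≤ Real.log (Real.log w) + C by
        linarith [(abs_le.1 (hC w (by omega))).2])) (show 0 ≤ 4 * (k : ℝ) by positivity)
    linarith
  rw [mul_div_assoc]
  exact mul_le_mul hsmall hlarge (by positivity) ((by positivity : (0 : ℝ) ≤ _).trans hsmall)

/-! ### The rest of the partial sum -/

theorem primeAbs_two_prime_le {k p : ℕ} (hk : 1 ≤ k) (hp : p.Prime) :
    WaringGoldbach.primeAbs k 2 p ≤ 2 * (2 * (k : ℝ) + 1) ^ 2 := by
  have hp2 : (2 : ℝ) ≤ p := by exact_mod_cast hp.two_le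
  refine (sum_le_card_nsmul _ _ (((2 * (k : ℝ) + 1) * √(p : ℝ) / ((p : ℝ) - 1)) ^ 2)
    fun r hr => ?_).trans ?_
  · rw [unitResidues, mem_filter] at hr
    refine pow_le_pow_left₀ (norm_nonneg _) ?_ 2
    have h := WaringGoldbach.norm_unitSum_prime_le hk hp (a := (r : ℤ))
      (by rw [Int.cast_natCast]; exact (ZMod.isUnit_iff_coprime r _).2 hr.2.symm)
    rw [unitFactor, norm_div, Complex.norm_natCast, Nat.totient_prime hp,
      Nat.cast_sub hp.one_le, Nat.cast_one]
    exact div_le_div_of_nonneg_right h (by linarith)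
  · rw [nsmul_eq_mul, card_unitResidues, Nat.totient_prime hp, Nat.cast_sub hp.one_le,
      Nat.cast_one, div_pow, mul_pow, Real.sq_sqrt (Nat.cast_nonneg p), mul_div_assoc',
      div_le_iff₀ (by nlinarith)]
    nlinarith [mul_le_mul_of_nonneg_left (show (p : ℝ) ≤ 2 * ((p : ℝ) - 1) by linarith)
      (show (0 : ℝ) ≤ (2 * k + 1) ^ 2 * ((p : ℝ) - 1) by nlinarith)]

theorem primeAbs_two_squarefree_le {k : ℕ} (hk : 1 ≤ k) : ∀ q : ℕ, Squarefree q →
    WaringGoldbach.primeAbs k 2 q ≤ (2 * (2 * (k : ℝ) + 1) ^ 2) ^ q.primeFactors.card := by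
  intro q
  induction q using Nat.recOnPosPrimePosCoprime with
  | prime_pow p n hp hn =>
    intro hsq
    obtain rfl : n = 1 := ((Nat.squarefree_pow_iff hp.ne_one (by omega)).1 hsq).2
    rw [pow_one, hp.primeFactors, card_singleton, pow_one]
    exact primeAbs_two_prime_le hk hp
  | zero => intro h; exact absurd h not_squarefree_zero
  | one => intro _; simp [WaringGoldbach.primeAbs_one]
  | coprime a b ha hb hab iha ihb =>
    intro hsq
    obtain ⟨h1, h2⟩ := (Nat.squarefree_mul hab).1 hsq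
    rw [WaringGoldbach.primeAbs_mul k 2 hab, Nat.Coprime.primeFactors_mul hab,
      card_union_of_disjoint hab.disjoint_primeFactors, pow_add]
    exact mul_le_mul (iha h1) (ihb h2) (WaringGoldbach.primeAbs_nonneg k 2 b) (by positivity)

/-- The squares of the coefficients of denominator `q`. -/
theorem exists_sum_jointCoeff_sq_le {k : ℕ} (hk : 1 ≤ k) : ∃ C : ℝ, 0 < C ∧ ∀ q : ℕ, 0 < q →
    ∑ r ∈ unitResidues q, ‖jointCoeff k ⟨q, r⟩‖ ^ 2 ≤ C * (q : ℝ) ^ (-(3 / 2) : ℝ) := by
  obtain ⟨C₁, hC₁, hω⟩ := BurgessComposite.exists_pow_card_primeFactors_le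
    (2 * (2 * (k : ℝ) + 1) ^ 2) (δ := 1 / 4) (by positivity) (by norm_num)
  obtain ⟨C₂, hC₂, hφ⟩ := PrimePlusPower.exists_inv_totient_le_rpow (ε := 1 / 8) (by norm_num)
  refine ⟨C₁ * C₂ ^ 2, by positivity, fun q hq => ?_⟩
  simp only [jointCoeff, norm_mul, mul_pow, ← mul_sum]
  by_cases hsq : Squarefree q
  · have hq0 : (0 : ℝ) < q := Nat.cast_pos.2 hq
    refine (mul_le_mul_of_nonneg_left ((primeAbs_two_squarefree_le hk q hsq).trans (hω q hq.ne'))
      (sq_nonneg _)).trans ?_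
    have h1 : ‖((moebiusR q / q.totient : ℝ) : ℂ)‖ ≤ C₂ * (q : ℝ) ^ (1 / 8 - 1 : ℝ) := by
      refine le_trans ?_ (hφ q hq)
      rw [Complex.norm_real, Real.norm_eq_abs, abs_div, Nat.abs_cast]
      exact div_le_div_of_nonneg_right (abs_moebiusR_le q) (Nat.cast_nonneg _)
    refine (mul_le_mul_of_nonneg_right (pow_le_pow_left₀ (norm_nonneg _) h1 2)
      (by positivity)).trans (le_of_eq ?_)
    rw [mul_pow, ← Real.rpow_natCast ((q : ℝ) ^ _) 2, ← Real.rpow_mul hq0.le,
      show (-(3 / 2) : ℝ) = (1 / 8 - 1) * ((2 : ℕ) : ℝ) + 1 / 4 by norm_num, Real.rpow_add hq0]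
    ring
  · have : moebiusR q = 0 := by
      rw [moebiusR, ArithmeticFunction.intCoe_apply,
        ArithmeticFunction.moebius_eq_zero_of_not_squarefree hsq, Int.cast_zero]
    simp [this]
    positivity

/-- **The rest of the partial sum is small in mean square.** -/
theorem exists_joint_rest {k : ℕ} (hk : 1 ≤ k) : ∃ C : ℝ, 0 < C ∧ ∀ w R N : ℕ, 1 ≤ w →
    FourCubes.smoothModulus w ≤ R →
    ∑ n ∈ Ioc 0 N, ‖∑ q ∈ Icc 1 R, jointTerm k n q - (smoothJoint k n w : ℂ)‖ ^ 2 ≤
      C * ((N : ℝ) * (w : ℝ) ^ (-(1 / 4) : ℝ)) + (R : ℝ) ^ 6 := by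
  obtain ⟨C, hC, hcoef⟩ := exists_sum_jointCoeff_sq_le hk
  have hsum : Summable fun q : ℕ => (q : ℝ) ^ (-(5 / 4) : ℝ) :=
    Real.summable_nat_rpow.2 (by norm_num)
  refine ⟨C * (∑' q : ℕ, (q : ℝ) ^ (-(5 / 4) : ℝ) + 1), mul_pos hC
    (add_pos_of_nonneg_of_pos (tsum_nonneg fun q => by positivity) one_pos),
    fun w R N hw hWR => ?_⟩
  have hsub : (FourCubes.smoothModulus w).divisors ⊆ Icc 1 R := fun q hq => mem_Icc.2
    ⟨Nat.pos_of_mem_divisors hq, (Nat.divisor_le hq).trans hWR⟩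
  obtain ⟨S, hS⟩ : ∃ S, S = Icc 1 R \ (FourCubes.smoothModulus w).divisors := ⟨_, rfl⟩
  have e : ∀ n, ∑ q ∈ Icc 1 R, jointTerm k n q - (smoothJoint k n w : ℂ) =
      ∑ z ∈ S.sigma unitResidues, jointCoeff k z * eAdd (-((n : ℝ) * centre z)) := fun n => by
    rw [← sum_divisors_smoothJoint k n hw, ← sum_sdiff hsub,
      add_sub_cancel_right, hS, jointTerm_eq_arcs]
  simp only [e]
  refine (HuaThreeSquares.sum_norm_trig_sq_le (R := R) ?_ (jointCoeff k) (norm_jointCoeff_le_one k)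
    0 N).trans (add_le_add ?_ le_rfl)
  · intro z hz
    rw [mem_sigma, hS, mem_sdiff] at hz
    rw [arcCentres, mem_sigma]
    exact ⟨hz.1.1, hz.2⟩
  · rw [Nat.sub_zero, mul_left_comm]
    refine mul_le_mul_of_nonneg_left ?_ (Nat.cast_nonneg _)
    rw [sum_sigma]
    calc ∑ q ∈ S, ∑ r ∈ unitResidues q, ‖jointCoeff k ⟨q, r⟩‖ ^ 2
        ≤ ∑ q ∈ S, C * ((w : ℝ) ^ (-(1 / 4) : ℝ) * (q : ℝ) ^ (-(5 / 4) : ℝ)) := by
          refine sum_le_sum fun q hq => ?_
          rw [hS, mem_sdiff, mem_Icc] at hq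
          have hwq : w < q := by
            by_contra h
            exact hq.2 (Nat.mem_divisors.2 ⟨FourCubes.dvd_smoothModulus hq.1.1 (not_lt.1 h),
              (FourCubes.smoothModulus_pos w).ne'⟩)
          refine (hcoef q hq.1.1).trans (mul_le_mul_of_nonneg_left ?_ hC.le)
          rw [show (-(3 / 2) : ℝ) = -(1 / 4) + -(5 / 4) by norm_num,
            Real.rpow_add (Nat.cast_pos.2 hq.1.1)]
          exact mul_le_mul_of_nonneg_right (Real.rpow_le_rpow_of_nonpos (Nat.cast_pos.2 hw)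
            (Nat.cast_le.2 hwq.le) (by norm_num)) (by positivity)
      _ ≤ _ := by
          rw [← mul_sum, ← mul_sum]
          refine (mul_le_mul_of_nonneg_left (mul_le_mul_of_nonneg_left
            (hsum.sum_le_tsum S fun q _ => by positivity) (by positivity)) hC.le).trans ?_
          have : 0 ≤ C * (w : ℝ) ^ (-(1 / 4) : ℝ) := by positivity
          linarith

end FA.PrimePlusPrimePower
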